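import Fermat.Agent.DigitFrequency.Billingsley
import Mathlib.Data.Nat.Size
import Mathlib.Data.Nat.Log
import Mathlib.Tactic

/-!
# The cells near rationals

A cell of length `2 ^ (-(2 n + 4))` is close to at most one rational with `2 ^ n ≤ q < 2 ^ (n + 1)`,
so at most five of its subcells of length `2 ^ (-(2 n + n / (k + 1)))` come that close to one:
these cells carry an exponentially small share of any nondegenerate product weight.
-/

set_option autoImplicit false

noncomputable section

open Finset Filter MeasureTheory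
open scoped Topology

namespace FA.WeissCantor

open FA.DigitFrequency

variable {b : ℕ}

/-- Approximable in the block of `2 ^ n` with exponent `2 + 1 / (k + 1)`. -/
def Near (k n : ℕ) (x : ℝ) : Prop :=
  ∃ (p : ℤ) (q : ℕ), 2 ^ n ≤ q ∧ q < 2 ^ (n + 1) ∧
    |x - (p : ℝ) / q| < 1 / (2 : ℝ) ^ (2 * n + n / (k + 1))

/-- The level of the cells. -/
def level (b n : ℕ) : ℕ := Nat.clog b (2 ^ (2 * n + 4))

/-- The further levels of the subcells. -/
def depth (b k n : ℕ) : ℕ := n / (k + 1) / b.size - 5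

/-- The words of the subcells that meet the points near a rational. -/
def nearWords (b k n : ℕ) : Finset (Fin (level b n + depth b k n) → Fin b) := by
  classical
  exact univ.filter fun v => ∃ ω : ℕ → Fin b, (∀ i : Fin _, ω i = v i) ∧
    Near k n (Real.ofDigits ω)

theorem mem_nearWords {k n : ℕ} {v : Fin (level b n + depth b k n) → Fin b} :
    v ∈ nearWords b k n ↔
      ∃ ω : ℕ → Fin b, (∀ i : Fin _, ω i = v i) ∧ Near k n (Real.ofDigits ω) := by
  classical
  simp [nearWords]

theorem mem_nearWords_of_near {k n : ℕ} {ω : ℕ → Fin b} (h : Near k n (Real.ofDigits ω)) :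
    (fun i : Fin (level b n + depth b k n) => ω i) ∈ nearWords b k n :=
  mem_nearWords.2 ⟨ω, fun _ => rfl, h⟩

theorem cellLength_level_le (hb : 2 ≤ b) (n : ℕ) :
    cellLength b (level b n) ≤ 1 / (2 : ℝ) ^ (2 * n + 4) := by
  rw [cellLength, one_div]
  refine inv_anti₀ (by positivity) ?_
  exact_mod_cast Nat.le_pow_clog (by omega : 1 < b) (2 ^ (2 * n + 4))

theorem le_cellLength_depth (hb : 2 ≤ b) {k n : ℕ} (hn : 6 * b.size ≤ n / (k + 1)) :
    1 / (2 : ℝ) ^ (2 * n + n / (k + 1)) ≤ cellLength b (level b n + depth b k n) := by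
  set T := n / (k + 1) with hT
  set S := b.size with hS
  have hS1 : 1 ≤ S := Nat.one_le_iff_ne_zero.2 (Nat.pos_iff_ne_zero.1 (Nat.size_pos.2 (by omega)))
  have hbS : b ≤ 2 ^ S := (Nat.lt_size_self b).le
  have hpos : 0 < level b n := Nat.clog_pos (by omega) (Nat.one_lt_pow (by omega) (by norm_num))
  have hL : b ^ level b n ≤ b * 2 ^ (2 * n + 4) := by
    have h := Nat.pow_pred_clog_lt_self (show 1 < b by omega)
      (Nat.one_lt_pow (show 2 * n + 4 ≠ 0 by omega) one_lt_two)
    rw [← Nat.sub_add_cancel hpos, pow_succ']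
    exact Nat.mul_le_mul_left b h.le
  have hd : depth b k n + 5 = T / S :=
    Nat.sub_add_cancel ((Nat.le_div_iff_mul_le hS1).2 (by omega))
  have hkey : b ^ (level b n + depth b k n) ≤ 2 ^ (2 * n + T) := by
    calc b ^ (level b n + depth b k n) = b ^ level b n * b ^ depth b k n := pow_add _ _ _
      _ ≤ b * 2 ^ (2 * n + 4) * b ^ depth b k n := Nat.mul_le_mul_right _ hL
      _ = b ^ (depth b k n + 1) * 2 ^ (2 * n + 4) := by ring
      _ ≤ 2 ^ (S * (depth b k n + 1)) * 2 ^ (2 * n + 4) := by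
          rw [pow_mul]
          exact Nat.mul_le_mul_right _ (Nat.pow_le_pow_left hbS _)
      _ = 2 ^ (S * (depth b k n + 1) + (2 * n + 4)) := (pow_add _ _ _).symm
      _ ≤ _ := by
          refine Nat.pow_le_pow_right two_pos ?_
          have h1 := Nat.div_mul_le_self T S
          rw [← hd] at h1
          nlinarith
  rw [cellLength, one_div]
  have hb0 : (0 : ℝ) < b := by exact_mod_cast (by omega : 0 < b)
  exact inv_anti₀ (by positivity) (by exact_mod_cast hkey)

/-- Two points in a cell that are near rationals are near each other. -/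
theorem abs_sub_le_of_near (hb : 2 ≤ b) {k n : ℕ} (hn : 6 * b.size ≤ n / (k + 1))
    {ω ω' : ℕ → Fin b} (hpre : ∀ i < level b n, ω i = ω' i) (h : Near k n (Real.ofDigits ω))
    (h' : Near k n (Real.ofDigits ω')) :
    |Real.ofDigits ω - Real.ofDigits ω'| < 2 / (2 : ℝ) ^ (2 * n + n / (k + 1)) := by
  obtain ⟨p, q, hq, hq2, hlt⟩ := h
  obtain ⟨p', q', hq', hq2', hlt'⟩ := h'
  have hdist := Real.abs_ofDigits_sub_ofDigits_le hpre
  have hcell : |Real.ofDigits ω - Real.ofDigits ω'| ≤ 1 / (2 : ℝ) ^ (2 * n + 4) :=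
    hdist.trans (cellLength_level_le hb n)
  have hS1 : 1 ≤ b.size :=
    Nat.one_le_iff_ne_zero.2 (Nat.pos_iff_ne_zero.1 (Nat.size_pos.2 (by omega)))
  have hδ : 1 / (2 : ℝ) ^ (2 * n + n / (k + 1)) ≤ 1 / (2 : ℝ) ^ (2 * n + 4) :=
    one_div_le_one_div_of_le (by positivity) (pow_le_pow_right₀ one_le_two (by omega))
  have hqR : (0 : ℝ) < q := Nat.cast_pos.2 (lt_of_lt_of_le (by positivity) hq)
  have hqR' : (0 : ℝ) < q' := Nat.cast_pos.2 (lt_of_lt_of_le (by positivity) hq')
  have heq : (p : ℝ) / q = (p' : ℝ) / q' := by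
    by_contra hne
    set D : ℤ := p * q' - p' * q with hD
    have hDR : (p : ℝ) / q - (p' : ℝ) / q' = (D : ℝ) / (q * q') := by
      rw [hD]
      push_cast
      field_simp
    have hD0 : D ≠ 0 := fun h0 => hne (sub_eq_zero.1 (by rw [hDR, h0]; simp))
    have hbig : 1 / ((q : ℝ) * q') ≤ |(p : ℝ) / q - (p' : ℝ) / q'| := by
      rw [hDR, abs_div, abs_of_pos (mul_pos hqR hqR')]
      exact div_le_div_of_nonneg_right (by exact_mod_cast Int.one_le_abs hD0) (by positivity)
    have hqq : 4 / (2 : ℝ) ^ (2 * n + 4) ≤ 1 / ((q : ℝ) * q') := by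
      have h1 : (q : ℝ) ≤ 2 * 2 ^ n := by
        exact_mod_cast (show q ≤ 2 * 2 ^ n by rw [pow_succ'] at hq2; omega)
      have h2 : (q' : ℝ) ≤ 2 * 2 ^ n := by
        exact_mod_cast (show q' ≤ 2 * 2 ^ n by rw [pow_succ'] at hq2'; omega)
      refine le_of_eq_of_le ?_ (one_div_le_one_div_of_le (mul_pos hqR hqR')
        (mul_le_mul h1 h2 hqR'.le (by positivity)))
      rw [pow_add, two_mul n, pow_add]
      field_simp
      norm_num
    have htri : |(p : ℝ) / q - (p' : ℝ) / q'| ≤ |Real.ofDigits ω - (p : ℝ) / q| +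
        |Real.ofDigits ω - Real.ofDigits ω'| + |Real.ofDigits ω' - (p' : ℝ) / q'| := by
      have e : (p : ℝ) / q - (p' : ℝ) / q' = -(Real.ofDigits ω - (p : ℝ) / q) +
          (Real.ofDigits ω - Real.ofDigits ω') + (Real.ofDigits ω' - (p' : ℝ) / q') := by ring
      rw [e]
      refine (abs_add_three _ _ _).trans (le_of_eq ?_)
      rw [abs_neg]
    have e4 : 4 / (2 : ℝ) ^ (2 * n + 4) = 4 * (1 / (2 : ℝ) ^ (2 * n + 4)) := by ring
    have hpos : (0 : ℝ) < 1 / (2 : ℝ) ^ (2 * n + 4) := by positivity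
    linarith
  rw [← heq] at hlt'
  have e2 : 2 / (2 : ℝ) ^ (2 * n + n / (k + 1)) = 1 / (2 : ℝ) ^ (2 * n + n / (k + 1)) +
      1 / (2 : ℝ) ^ (2 * n + n / (k + 1)) := by ring
  rw [e2]
  calc |Real.ofDigits ω - Real.ofDigits ω'|
      = |(Real.ofDigits ω - (p : ℝ) / q) - (Real.ofDigits ω' - (p : ℝ) / q)| := by
        rw [sub_sub_sub_cancel_right]
    _ ≤ |Real.ofDigits ω - (p : ℝ) / q| + |Real.ofDigits ω' - (p : ℝ) / q| := abs_sub _ _
    _ < _ := add_lt_add hlt hlt'

/-- **The weight of the cells near rationals.** -/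
theorem sum_nearWords_le (hb : 2 ≤ b) {p : Fin b → ℝ} (hp0 : ∀ j, 0 ≤ p j) (hp1 : ∑ j, p j = 1)
    {r : ℝ} (hr : ∀ j, p j ≤ r) {k n : ℕ} (hn : 6 * b.size ≤ n / (k + 1)) :
    ∑ v ∈ nearWords b k n, ∏ i, p (v i) ≤ 5 * r ^ depth b k n := by
  classical
  have : Nonempty (Fin b) := ⟨⟨0, by omega⟩⟩
  have hr0 : 0 ≤ r := (hp0 ⟨0, by omega⟩).trans (hr _)
  set L := level b n with hL
  set J := depth b k n with hJ
  rw [← sum_fiberwise (nearWords b k n) (fun v => fun i : Fin L => v (Fin.castAdd J i))]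
  refine (sum_le_sum (g := fun w : Fin L → Fin b => (∏ i, p (w i)) * (5 * r ^ J))
    fun w _ => ?_).trans (le_of_eq ?_)
  · set P := (nearWords b k n).filter fun v => (fun i : Fin L => v (Fin.castAdd J i)) = w with hP
    have hcard : #P ≤ 5 := by
      rcases P.eq_empty_or_nonempty with h0 | ⟨v₀, hv₀⟩
      · simp [h0]
      rw [hP, mem_filter, mem_nearWords] at hv₀
      obtain ⟨⟨ω₀, hω₀, hn₀⟩, hw₀⟩ := hv₀
      have hrep : ∀ v ∈ P, ∃ ω : ℕ → Fin b, (∀ i : Fin (L + J), ω i = v i) ∧
          Near k n (Real.ofDigits ω) := fun v hv => mem_nearWords.1 (mem_filter.1 hv).1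
      choose! rep hrep1 hrep2 using hrep
      refine le_trans (card_le_card_of_injOn (t := range 5)
        (fun v => prefixValue (rep v) (L + J) + 2 - prefixValue ω₀ (L + J)) (fun v hv => ?_)
        fun v hv v' hv' he => ?_) (card_range 5).le
      all_goals
        have hclose : ∀ u ∈ P, prefixValue (rep u) (L + J) ≤ prefixValue ω₀ (L + J) + 2 ∧
            prefixValue ω₀ (L + J) ≤ prefixValue (rep u) (L + J) + 2 := fun u hu => by
          have hpre : ∀ i < L, rep u i = ω₀ i := fun i hi => by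
            have h1 := hrep1 u hu (Fin.castAdd J ⟨i, hi⟩)
            have h2 := hω₀ (Fin.castAdd J ⟨i, hi⟩)
            simp only [Fin.val_castAdd] at h1 h2
            rw [h1, h2, congrFun (mem_filter.1 hu).2 ⟨i, hi⟩, ← congrFun hw₀ ⟨i, hi⟩]
          have hd := abs_lt.1 (abs_sub_le_of_near hb hn hpre (hrep2 u hu) hn₀)
          have hδ := le_cellLength_depth hb hn
          rw [← hL, ← hJ] at hδ
          obtain ⟨a1, a2⟩ := prefixValue_le_ofDigits (rep u) (L + J)
          obtain ⟨a3, a4⟩ := prefixValue_le_ofDigits ω₀ (L + J)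
          have e2 : 2 / (2 : ℝ) ^ (2 * n + n / (k + 1)) =
              2 * (1 / (2 : ℝ) ^ (2 * n + n / (k + 1))) := by ring
          rw [e2] at hd
          have hc := cellLength_pos hb (L + J)
          have e1 : (prefixValue (rep u) (L + J) : ℝ) <
              ((prefixValue ω₀ (L + J) + 3 : ℕ) : ℝ) := by
            refine lt_of_mul_lt_mul_right ?_ hc.le
            push_cast
            linarith
          have e3 : (prefixValue ω₀ (L + J) : ℝ) <
              ((prefixValue (rep u) (L + J) + 3 : ℕ) : ℝ) := by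
            refine lt_of_mul_lt_mul_right ?_ hc.le
            push_cast
            linarith
          rw [Nat.cast_lt] at e1 e3
          omega
      · simp only [mem_coe, mem_range]
        have := hclose v hv
        omega
      · have h1 := hclose v hv
        have h2 := hclose v' hv'
        simp only at he
        have heq : prefixValue (rep v) (L + J) = prefixValue (rep v') (L + J) := by omega
        funext i
        rw [← hrep1 v hv i, ← hrep1 v' hv' i]
        exact eq_of_prefixValue_eq heq i i.isLt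
    calc ∑ v ∈ P, ∏ i, p (v i) ≤ ∑ _v ∈ P, (∏ i, p (w i)) * r ^ J := by
          refine sum_le_sum fun v hv => ?_
          rw [Fin.prod_univ_add, prod_congr rfl (s₁ := (univ : Finset (Fin L)))
            (g := fun i => p (w i)) fun i _ => by rw [← (mem_filter.1 hv).2]]
          refine mul_le_mul_of_nonneg_left ?_ (prod_nonneg fun i _ => hp0 _)
          exact (prod_le_prod (fun i _ => hp0 _) fun i _ => hr _).trans
            (le_of_eq (by simp [hJ]))
      _ = #P * ((∏ i, p (w i)) * r ^ J) := by rw [sum_const, nsmul_eq_mul]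
      _ ≤ 5 * ((∏ i, p (w i)) * r ^ J) := mul_le_mul_of_nonneg_right (by exact_mod_cast hcard)
          (mul_nonneg (prod_nonneg fun i _ => hp0 _) (pow_nonneg hr0 _))
      _ = _ := by ring
  · rw [← sum_mul, ← Fintype.prod_sum fun (_ : Fin L) j => p j, prod_const, hp1, one_pow, one_mul]

theorem summable_depth {r : ℝ} (hr0 : 0 < r) (hr1 : r < 1) (hb : 2 ≤ b) (k : ℕ) :
    Summable fun n => 5 * r ^ depth b k n := by
  set D := (k + 1) * b.size with hD
  have hD0 : (0 : ℝ) < D := by
    have := Nat.size_pos.2 (show 0 < b by omega)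
    positivity
  refine Summable.of_nonneg_of_le (fun n => by positivity) (fun n => ?_)
    ((summable_geometric_of_lt_one (Real.rpow_nonneg hr0.le (D : ℝ)⁻¹)
      (Real.rpow_lt_one hr0.le hr1 (inv_pos.2 hD0))).mul_left (5 * r ^ (-(6 : ℝ))))
  have hlow : (n : ℝ) / D - 6 ≤ (depth b k n : ℕ) := by
    have h1 : n < (n / D + 1) * D := by
      have := Nat.lt_div_mul_add (a := n) (b := D) (Nat.cast_pos.1 hD0)
      rw [add_mul, one_mul]
      exact this
    have h2 : n / D ≤ depth b k n + 5 := by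
      rw [depth, Nat.div_div_eq_div_mul, ← hD]
      omega
    have h3 : (n : ℝ) / D < ((n / D : ℕ) : ℝ) + 1 := by
      rw [div_lt_iff₀ hD0]
      exact_mod_cast h1
    have h4 : ((n / D : ℕ) : ℝ) ≤ ((depth b k n : ℕ) : ℝ) + 5 := by exact_mod_cast h2
    linarith
  rw [mul_assoc, ← Real.rpow_natCast, ← Real.rpow_natCast _ n, ← Real.rpow_mul hr0.le,
    ← Real.rpow_add hr0]
  refine mul_le_mul_of_nonneg_left (Real.rpow_le_rpow_of_exponent_ge hr0 hr1.le ?_) (by norm_num)
  refine le_trans (le_of_eq ?_) hlow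
  field_simp
  ring

end FA.WeissCantor
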