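import Fermat.Agent.WeissCantor.Cells
import Fermat.Agent.EulerFraction.Exponent
import Mathlib.NumberTheory.Transcendental.Liouville.LiouvilleWith

/-!
# Weiss's theorem

The cells near rationals have summable weight, so almost no point for a nondegenerate product
weight, and a null set of the missing-digit set for its Hausdorff measure, is very well
approximable.
-/

set_option autoImplicit false

noncomputable section

open Finset Filter MeasureTheory Measure Metric
open scoped Topology ENNReal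

namespace FA.WeissCantor

open FA.DigitFrequency

variable {b : ℕ}

/-- Irrational of irrationality exponent two. -/
def ExponentTwo (x : ℝ) : Prop :=
  Irrational x ∧ LiouvilleWith 2 x ∧ ∀ r : ℝ, 2 < r → ¬LiouvilleWith r x

theorem exponentTwo_of_not_near {x : ℝ} (h : ∀ k, ∀ᶠ n in atTop, ¬Near k n x) :
    ExponentTwo x := by
  have hirr : Irrational x := by
    rintro ⟨r, rfl⟩
    obtain ⟨N, hN⟩ := eventually_atTop.1 (h 0)
    set n := max N r.den with hn
    have hd : r.den < 2 ^ n := (le_max_right N r.den).trans_lt Nat.lt_two_pow_self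
    set i := 2 ^ n / r.den + 1 with hi
    refine hN n (le_max_left _ _) ⟨r.num * i, r.den * i, ?_, ?_, ?_⟩
    · exact (Nat.lt_mul_div_succ _ r.den_pos).le
    · rw [pow_succ, hi, mul_add, mul_one]
      have := Nat.mul_div_le (2 ^ n) r.den
      omega
    · push_cast
      rw [mul_div_mul_right _ _ (Nat.cast_ne_zero.2 (show i ≠ 0 from Nat.succ_ne_zero _)),
        ← Rat.cast_def,
        sub_self, abs_zero]
      positivity
  refine ⟨hirr, EulerFraction.liouvilleWith_two hirr, fun r hr hL => ?_⟩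
  set r' := (r + 2) / 2 with hr'
  obtain ⟨k, hk⟩ := exists_nat_one_div_lt (show 0 < r' - 2 by linarith)
  obtain ⟨N, hN⟩ := eventually_atTop.1 (h k)
  have hfreq := hL.frequently_lt_rpow_neg (show r' < r by linarith)
  obtain ⟨q, ⟨m, -, hlt⟩, hq⟩ := (hfreq.and_eventually (eventually_ge_atTop (2 ^ N))).exists
  have hq0 : 0 < q := lt_of_lt_of_le (by positivity) hq
  set n := Nat.log 2 q with hn
  have h1 : 2 ^ n ≤ q := Nat.pow_log_le_self 2 hq0.ne'
  refine hN n (Nat.le_log_of_pow_le one_lt_two hq)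
    ⟨m, q, h1, Nat.lt_pow_succ_log_self one_lt_two q, hlt.trans_le ?_⟩
  have h1R : (2 : ℝ) ^ n ≤ q := by exact_mod_cast h1
  refine (Real.rpow_le_rpow_of_nonpos (by positivity) h1R (by linarith)).trans ?_
  rw [one_div, ← Real.rpow_natCast, ← Real.rpow_natCast, ← Real.rpow_neg zero_le_two,
    ← Real.rpow_mul zero_le_two]
  refine Real.rpow_le_rpow_of_exponent_le one_le_two ?_
  have h2 : ((n / (k + 1) : ℕ) : ℝ) ≤ (n : ℝ) / (k + 1) := by
    refine le_trans Nat.cast_div_le ?_
    push_cast
    exact le_rfl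
  have h3 : (n : ℝ) / (k + 1) ≤ (n : ℝ) * (r' - 2) := by
    rw [div_eq_mul_one_div]
    exact mul_le_mul_of_nonneg_left hk.le (Nat.cast_nonneg n)
  push_cast
  nlinarith

theorem exists_bound_lt_one {p : Fin b → ℝ} (hlt : ∀ j, p j < 1) :
    ∃ r : ℝ, 0 < r ∧ r < 1 ∧ ∀ j, p j ≤ r := by
  rcases isEmpty_or_nonempty (Fin b) with h | h
  · exact ⟨1 / 2, by norm_num, by norm_num, fun j => h.elim j⟩
  obtain ⟨j₀, -, hmax⟩ := exists_max_image univ p univ_nonempty
  refine ⟨max (p j₀) (1 / 2), lt_max_of_lt_right (by norm_num), max_lt (hlt j₀) (by norm_num),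
    fun j => (hmax j (mem_univ j)).trans (le_max_left _ _)⟩

/-- **Weiss's theorem for Bernoulli digits.** -/
theorem ae_exponentTwo (hb : 2 ≤ b) {p : Fin b → ℝ} (hp0 : ∀ j, 0 ≤ p j) (hp1 : ∑ j, p j = 1)
    (hlt : ∀ j, p j < 1) : ∀ᵐ ω ∂sequenceLaw p, ExponentTwo (Real.ofDigits ω) := by
  classical
  obtain ⟨r, hr0, hr1, hr⟩ := exists_bound_lt_one hlt
  have key : ∀ k, ∀ᵐ ω ∂sequenceLaw p, ∀ᶠ n in atTop, ¬Near k n (Real.ofDigits ω) := fun k => by
    set E : ℕ → Set (ℕ → Fin b) := fun n =>
      if 6 * b.size ≤ n / (k + 1) then {ω | Near k n (Real.ofDigits ω)} else ∅ with hE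
    have hμ : ∀ n, sequenceLaw p (E n) ≤ ENNReal.ofReal (5 * r ^ depth b k n) := fun n => by
      by_cases hn : 6 * b.size ≤ n / (k + 1)
      · simp only [hE, if_pos hn]
        have hsub : {ω | Near k n (Real.ofDigits ω)} ⊆ ⋃ v ∈ nearWords b k n,
            {ω : ℕ → Fin b | ∀ i : Fin _, ω i = v i} := fun ω hω =>
          Set.mem_biUnion (mem_nearWords_of_near hω) fun _ => rfl
        refine (measure_mono hsub).trans ((measure_biUnion_finset_le _ _).trans ?_)
        refine le_trans ?_ (ENNReal.ofReal_le_ofReal (sum_nearWords_le hb hp0 hp1 hr hn))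
        rw [ENNReal.ofReal_sum_of_nonneg fun v _ => prod_nonneg fun i _ => hp0 _]
        refine sum_le_sum fun v hv => ?_
        obtain ⟨ω₁, hω₁, -⟩ := mem_nearWords.1 hv
        have e : {ω : ℕ → Fin b | ∀ i : Fin _, ω i = v i} =
            {ω | ∀ i < level b n + depth b k n, ω i = ω₁ i} := by
          ext ω
          exact ⟨fun h i hi => (h ⟨i, hi⟩).trans (hω₁ ⟨i, hi⟩).symm,
            fun h i => (h i i.isLt).trans (hω₁ i)⟩
        rw [e, sequenceLaw_cylinder hp0 hp1, wordWeight, ← Fin.prod_univ_eq_prod_range]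
        exact le_of_eq (congrArg _ (prod_congr rfl fun i _ => congrArg p (hω₁ i)))
      · simp only [hE, if_neg hn, measure_empty]
        exact zero_le
    have hsum : ∑' n, sequenceLaw p (E n) ≠ ⊤ :=
      ne_top_of_le_ne_top (ENNReal.ofReal_tsum_of_nonneg (fun n => by positivity)
        (summable_depth hr0 hr1 hb k) ▸ ENNReal.ofReal_ne_top) (ENNReal.tsum_le_tsum hμ)
    filter_upwards [ae_eventually_notMem hsum] with ω hω
    filter_upwards [hω, eventually_ge_atTop (6 * b.size * (k + 1))] with n hn hge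
    intro hnear
    refine hn ?_
    simp only [hE, if_pos ((Nat.le_div_iff_mul_le k.succ_pos).2 hge)]
    exact hnear
  filter_upwards [ae_all_iff.2 key] with ω hω
  exact exponentTwo_of_not_near hω

/-- **Weiss's theorem for missing-digit sets.** -/
theorem hausdorffMeasure_not_exponentTwo (hb : 2 ≤ b) {S : Finset (Fin b)} (hS : 2 ≤ #S) :
    μH[Real.log #S / Real.log b]
      (Real.ofDigits '' {ω : ℕ → Fin b | ∀ i, ω i ∈ S} ∩ {x | ¬ExponentTwo x}) = 0 := by
  classical
  set s := Real.log #S / Real.log b with hs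
  set p : Fin b → ℝ := fun j => if j ∈ S then ((#S : ℕ) : ℝ)⁻¹ else 0 with hp
  have hbR : (1 : ℝ) < b := by exact_mod_cast (by omega : 1 < b)
  have hSR : (2 : ℝ) ≤ (#S : ℕ) := by exact_mod_cast hS
  have hs0 : 0 < s := div_pos (Real.log_pos (by linarith)) (Real.log_pos hbR)
  have hp0 : ∀ j, 0 ≤ p j := fun j => by simp only [hp]; positivity
  have hp1 : ∑ j, p j = 1 := by
    simp only [hp, sum_ite_mem, univ_inter, sum_const, nsmul_eq_mul]
    exact mul_inv_cancel₀ (by linarith)
  have hlt : ∀ j, p j < 1 := fun j => by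
    simp only [hp]
    split_ifs
    · exact inv_lt_one_of_one_lt₀ (by linarith)
    · exact one_pos
  have hbs : (b : ℝ) ^ s = (#S : ℕ) := by
    rw [Real.rpow_def_of_pos (by linarith), hs, mul_div_cancel₀ _ (Real.log_pos hbR).ne',
      Real.exp_log (by linarith)]
  obtain ⟨r, hr0, hr1, hr⟩ := exists_bound_lt_one hlt
  set B : ℕ → Set ℝ := fun k =>
    Real.ofDigits '' {ω : ℕ → Fin b | ∀ i, ω i ∈ S} ∩ {x | ∃ᶠ n in atTop, Near k n x} with hB
  have hsub : Real.ofDigits '' {ω : ℕ → Fin b | ∀ i, ω i ∈ S} ∩ {x | ¬ExponentTwo x} ⊆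
      ⋃ k, B k := by
    rintro x ⟨hx, hne⟩
    by_contra hcon
    simp only [Set.mem_iUnion, hB, Set.mem_inter_iff, Set.mem_ofPred_eq, not_exists, not_and,
      not_frequently] at hcon
    exact hne (exponentTwo_of_not_near fun k => hcon k hx)
  refine measure_mono_null hsub (measure_iUnion_null fun k => ?_)
  set W : ∀ n, Finset (Fin (level b n + depth b k n) → Fin b) := fun n =>
    (nearWords b k n).filter fun v => ∀ i, v i ∈ S with hW
  set t : ∀ N : ℕ, ((i : ℕ) × (Fin (level b (i + N) + depth b k (i + N)) → Fin b)) → Set ℝ :=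
    fun N a => if a.2 ∈ W (a.1 + N) then
      Real.ofDigits '' {ω : ℕ → Fin b | ∀ i : Fin _, ω i = a.2 i} else ∅ with ht
  have hdiam : ∀ N a, ediam (t N a) ≤
      ENNReal.ofReal (cellLength b (level b (a.1 + N) + depth b k (a.1 + N))) := fun N a => by
    simp only [ht]
    split_ifs
    · refine Metric.ediam_le ?_
      rintro _ ⟨x, hx, rfl⟩ _ ⟨y, hy, rfl⟩
      rw [edist_dist, Real.dist_eq]
      exact ENNReal.ofReal_le_ofReal (Real.abs_ofDigits_sub_ofDigits_le fun i hi =>
        (hx ⟨i, hi⟩).trans (hy ⟨i, hi⟩).symm)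
    · simp
  have hr' : Tendsto (fun N : ℕ => ENNReal.ofReal (cellLength b (level b N))) atTop (𝓝 0) := by
    have h : Tendsto (fun N : ℕ => cellLength b (level b N)) atTop (𝓝 0) := by
      refine (tendsto_cellLength hb).comp (tendsto_atTop_atTop_of_monotone (fun a c hac =>
        Nat.clog_mono_right b (Nat.pow_le_pow_right two_pos (by omega))) fun N => ⟨b ^ N, ?_⟩)
      refine (Nat.clog_pow b N (by omega)).ge.trans (Nat.clog_mono_right b ?_)
      exact Nat.lt_two_pow_self.le.trans (Nat.pow_le_pow_right two_pos (by omega))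
    simpa using ENNReal.tendsto_ofReal h
  refine le_antisymm ((hausdorffMeasure_le_liminf_tsum s _ _ hr' t (Eventually.of_forall fun N a =>
    (hdiam N a).trans (ENNReal.ofReal_le_ofReal ?_)) (Eventually.of_forall fun N x hx => ?_)).trans
      ?_) zero_le
  · rw [cellLength, cellLength]
    refine inv_anti₀ (by positivity) (pow_le_pow_right₀ hbR.le (le_add_right ?_))
    exact Nat.clog_mono_right b (Nat.pow_le_pow_right two_pos (by omega))
  · obtain ⟨⟨ω, hω, rfl⟩, hfreq⟩ := hx
    obtain ⟨n, hn, hge⟩ := (hfreq.and_eventually (eventually_ge_atTop N)).exists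
    obtain ⟨i, rfl⟩ : ∃ i, n = i + N := ⟨n - N, by omega⟩
    refine Set.mem_iUnion.2 ⟨⟨i, fun l => ω l⟩, ?_⟩
    simp only [ht]
    rw [if_pos (mem_filter.2 ⟨mem_nearWords_of_near hn, fun (l : Fin _) => hω l⟩)]
    exact ⟨ω, fun _ => rfl, rfl⟩
  · have hN : ∀ N, 6 * b.size * (k + 1) ≤ N →
        ∑' a, ediam (t N a) ^ s ≤ ∑' i, ENNReal.ofReal (5 * r ^ depth b k (i + N)) := fun N hN => by
      rw [ENNReal.tsum_sigma']
      refine ENNReal.tsum_le_tsum fun i => ?_
      rw [tsum_fintype]
      refine (sum_le_sum (g := fun v =>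
        ENNReal.ofReal (if v ∈ W (i + N) then ∏ l, p (v l) else 0)) fun v _ => ?_).trans ?_
      · by_cases hv : v ∈ W (i + N)
        · refine (ENNReal.rpow_le_rpow (hdiam N ⟨i, v⟩) hs0.le).trans (le_of_eq ?_)
          rw [ENNReal.ofReal_rpow_of_nonneg (cellLength_pos hb _).le hs0.le, if_pos hv]
          congr 1
          rw [cellLength, Real.inv_rpow (by positivity), ← Real.rpow_natCast, ← Real.rpow_mul
            (by positivity), mul_comm, Real.rpow_mul (by positivity), hbs, Real.rpow_natCast,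
            ← inv_pow, prod_congr rfl fun l _ => if_pos ((mem_filter.1 hv).2 l), prod_const,
            card_univ, Fintype.card_fin]
        · simp [ht, hv, hs0]
      · rw [← ENNReal.ofReal_sum_of_nonneg fun v _ => by
          split_ifs <;> first | exact prod_nonneg fun l _ => hp0 _ | exact le_rfl]
        refine ENNReal.ofReal_le_ofReal (le_trans ?_ (sum_nearWords_le hb hp0 hp1 hr
          ((Nat.le_div_iff_mul_le k.succ_pos).2 (hN.trans (Nat.le_add_left N i)))))
        rw [sum_ite_mem, univ_inter]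
        exact sum_le_sum_of_subset_of_nonneg (filter_subset _ _)
          fun v _ _ => prod_nonneg fun l _ => hp0 _
    have hlim : Tendsto (fun N : ℕ => ∑' i, ENNReal.ofReal (5 * r ^ depth b k (i + N))) atTop
        (𝓝 0) := ENNReal.tendsto_sum_nat_add _ (ENNReal.ofReal_tsum_of_nonneg
          (fun n => by positivity) (summable_depth hr0 hr1 hb k) ▸ ENNReal.ofReal_ne_top)
    refine (liminf_le_liminf ?_).trans hlim.liminf_eq.le
    filter_upwards [eventually_ge_atTop (6 * b.size * (k + 1))] with N hN' using hN N hN'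

end FA.WeissCantor
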